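/-
S25 package ATLAS, sub-package RIG (helper6325): rigidity is stable under base change.
Uses only the frozen definitions (`Defs.lean`).  No sorry.
-/
import Fermat.Agent.S25.Defs

set_option autoImplicit false

universe u

namespace Fermat.Agent.S25.ATLAS.RIG

open scoped TensorProduct

open GluedModule

variable {k : Type u} [Field k] (𝒞 : CurveData k)

/-- `ε` commutes with base change. -/
theorem epsR_chartHom {R R' : Type u} [CommRing R] [Algebra k R] [CommRing R'] [Algebra k R']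
    (φ : R →ₐ[k] R') (b : (𝒞.chart R).B₁) :
    𝒞.epsR R' ((𝒞.chartHom φ).ψ₁ b) = φ (𝒞.epsR R b) := by
  have key : ∀ b : R ⊗[k] 𝒞.A₁,
      (Algebra.TensorProduct.lift (AlgHom.id R' R') ((Algebra.ofId k R').comp 𝒞.ε)
        (fun _ _ => Commute.all _ _)) (Algebra.TensorProduct.map φ (AlgHom.id k 𝒞.A₁) b) =
      φ ((Algebra.TensorProduct.lift (AlgHom.id R R) ((Algebra.ofId k R).comp 𝒞.ε)
        (fun _ _ => Commute.all _ _)) b) := by
    intro b
    induction b using TensorProduct.induction_on with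
    | zero => simp
    | tmul r a =>
      simp only [Algebra.TensorProduct.map_tmul, AlgHom.id_apply,
        Algebra.TensorProduct.lift_tmul, AlgHom.comp_apply, Algebra.ofId_apply, map_mul,
        AlgHom.commutes]
    | add x y hx hy => simp only [map_add, hx, hy]
  exact key b

/-- The evaluation map of a rigid module is surjective. -/
theorem exists_eq_one_of_rigid {R : Type u} [CommRing R] [Algebra k R]
    (L : GluedModule (𝒞.chart R)) (e : L.N₁ →ₗ[R] R)
    (huniv : ∀ (Q : Type u) [AddCommGroup Q] [Module R Q] (h : L.N₁ →ₗ[R] Q),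
      (∀ (b : (𝒞.chart R).B₁) (n : L.N₁), h (b • n) = 𝒞.epsR R b • h n) →
        ∃! h' : R →ₗ[R] Q, ∀ n, h' (e n) = h n) :
    ∃ n₀ : L.N₁, e n₀ = 1 := by
  -- the two maps `R → R ⧸ range e`, `0` and `mkQ`, both kill `e`
  obtain ⟨h', -, huniq⟩ := huniv (R ⧸ LinearMap.range e) 0 (by intro b n; simp)
  have h0 : (0 : R →ₗ[R] R ⧸ LinearMap.range e) = h' := huniq 0 (by intro n; simp)
  have h1 : (LinearMap.range e).mkQ = h' := huniq _ (by
    intro n
    simp only [LinearMap.zero_apply]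
    exact (Submodule.Quotient.mk_eq_zero _).2 ⟨n, rfl⟩)
  have h2 : (LinearMap.range e).mkQ (1 : R) = 0 := by rw [h1, ← h0]; rfl
  exact (Submodule.Quotient.mk_eq_zero _).1 h2

/-- (RIG) Rigid modules stay rigid under base change. -/
theorem rigid_of_isBC {R R' : Type u} [CommRing R] [Algebra k R] [CommRing R'] [Algebra k R']
    (φ : R →ₐ[k] R') (L : GluedModule (𝒞.chart R)) (L' : GluedModule (𝒞.chart R'))
    (hL : Rigid 𝒞 L) (h : IsBC (𝒞.chartHom φ) L L') : Rigid 𝒞 L' := by
  obtain ⟨e, he, huniv⟩ := hL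
  obtain ⟨D⟩ := h
  obtain ⟨n₀, hn₀⟩ := exists_eq_one_of_rigid 𝒞 L e huniv
  -- `j₁` is `φ`-semilinear over the base
  have hj₁R : ∀ (r : R) (n : L.N₁), D.j₁ (r • n) = φ r • D.j₁ n := by
    intro r n
    rw [← algebraMap_smul (𝒞.chart R).B₁ r n, D.j₁_smul, (𝒞.chartHom φ).alg₁,
      algebraMap_smul]
    rfl
  -- `R'` as a `B₁'`-module through `ε`
  let modB : Module (𝒞.chart R').B₁ R' :=
    Module.compHom R' ((𝒞.epsR R' : (𝒞.chart R').B₁ →ₐ[R'] R') : (𝒞.chart R').B₁ →+* R')
  have hsmulB : ∀ (b : (𝒞.chart R').B₁) (x : R'), b • x = 𝒞.epsR R' b * x := fun _ _ => rfl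
  let h₀ : L.N₁ →+ R' := (φ : R →+* R').toAddMonoidHom.comp e.toAddMonoidHom
  have hh₀ : ∀ n, h₀ n = φ (e n) := fun _ => rfl
  obtain ⟨e'', he'', -⟩ := D.univ₁ R' h₀ (by
    intro b n
    rw [hh₀, hh₀, he, map_mul, hsmulB, epsR_chartHom])
  -- the new evaluation map
  let e' : L'.N₁ →ₗ[R'] R' :=
    { toFun := e''
      map_add' := e''.map_add
      map_smul' := by
        intro r n
        rw [← algebraMap_smul (𝒞.chart R').B₁ r n, e''.map_smul, hsmulB, AlgHom.commutes]
        rfl }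
  have he'app : ∀ n, e' n = e'' n := fun _ => rfl
  have he'semi : ∀ (b : (𝒞.chart R').B₁) (n : L'.N₁), e' (b • n) = 𝒞.epsR R' b * e' n := by
    intro b n
    rw [he'app, he'app, e''.map_smul, hsmulB]
  have he'j : ∀ n, e' (D.j₁ n) = φ (e n) := fun n => he'' n
  have he'one : e' (D.j₁ n₀) = 1 := by rw [he'j, hn₀, map_one]
  refine ⟨e', he'semi, ?_⟩
  intro Q _ _ g hg
  refine ⟨LinearMap.toSpanSingleton R' Q (g (D.j₁ n₀)), ?_, ?_⟩
  · -- existence
    -- `Q` as an `R`-module through `φ`, and as a `B₁'`-module through `ε`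
    let modRQ : Module R Q := Module.compHom Q (φ : R →+* R')
    have hsmulRQ : ∀ (r : R) (q : Q), r • q = φ r • q := fun _ _ => rfl
    let modBQ : Module (𝒞.chart R').B₁ Q :=
      Module.compHom Q ((𝒞.epsR R' : (𝒞.chart R').B₁ →ₐ[R'] R') : (𝒞.chart R').B₁ →+* R')
    have hsmulBQ : ∀ (b : (𝒞.chart R').B₁) (q : Q), b • q = 𝒞.epsR R' b • q := fun _ _ => rfl
    -- step 1: on the image of `j₁`
    let g₀ : L.N₁ →ₗ[R] Q :=
      { toFun := fun n => g (D.j₁ n)
        map_add' := by intro x y; rw [map_add, map_add]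
        map_smul' := by
          intro r n
          rw [hj₁R, g.map_smul]
          rfl }
    obtain ⟨g', hg', -⟩ := huniv Q g₀ (by
      intro b n
      change g (D.j₁ (b • n)) = 𝒞.epsR R b • g (D.j₁ n)
      rw [D.j₁_smul, hg, epsR_chartHom, hsmulRQ])
    have hg'one : g' 1 = g (D.j₁ n₀) := by rw [← hn₀]; exact hg' n₀
    have hstep : ∀ n, g (D.j₁ n) = φ (e n) • g (D.j₁ n₀) := by
      intro n
      have h1 : g (D.j₁ n) = g' (e n) := (hg' n).symm
      rw [h1, ← hg'one, ← hsmulRQ, ← g'.map_smul, smul_eq_mul, mul_one]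
    -- step 2: two `B₁'`-linear maps agreeing on the image of `j₁`
    let F₁ : L'.N₁ →ₗ[(𝒞.chart R').B₁] Q :=
      { toFun := fun n => e' n • g (D.j₁ n₀)
        map_add' := by intro x y; rw [map_add, add_smul]
        map_smul' := by
          intro b n
          rw [he'semi, mul_smul]
          rfl }
    let F₂ : L'.N₁ →ₗ[(𝒞.chart R').B₁] Q :=
      { toFun := g
        map_add' := g.map_add
        map_smul' := by
          intro b n
          rw [hg]
          rfl }
    let h₁ : L.N₁ →+ Q :=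
      { toFun := fun n => g (D.j₁ n)
        map_zero' := by rw [map_zero, map_zero]
        map_add' := by intro x y; rw [map_add, map_add] }
    obtain ⟨F, -, hFuniq⟩ := D.univ₁ Q h₁ (by
      intro b n
      change g (D.j₁ (b • n)) = (𝒞.chartHom φ).ψ₁ b • g (D.j₁ n)
      rw [D.j₁_smul, hg, hsmulBQ])
    have hF₁ : F₁ = F := hFuniq F₁ (by
      intro n
      change e' (D.j₁ n) • g (D.j₁ n₀) = g (D.j₁ n)
      rw [he'j]
      exact (hstep n).symm)
    have hF₂ : F₂ = F := hFuniq F₂ (fun n => rfl)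
    intro n
    have := congrArg (fun F : L'.N₁ →ₗ[(𝒞.chart R').B₁] Q => F n) (hF₁.trans hF₂.symm)
    rw [LinearMap.toSpanSingleton_apply]
    exact this
  · -- uniqueness
    intro g'' hg''
    apply LinearMap.ext_ring
    rw [LinearMap.toSpanSingleton_apply, one_smul, ← he'one, hg'']

end Fermat.Agent.S25.ATLAS.RIG
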